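/-
helper77, P-MW row 877 (MW-E-HOLO): `holo P₀` is a Dedekind domain with fraction field `F`,
and its maximal ideals are the places `≠ P₀`.

Proof: Riemann gives `t ∈ holo P₀` with a pole at `P₀` (`mwh_exists_pole`); `t` is
transcendental, `F / K(t)` is finite separable, and `holo P₀` is the integral closure of `K[t]`
in `F` (helper68's chart dictionary `pd_isIntegral_iff`).  The places dictionary is helper19's /
helper29's (`rh_exists_heightOneSpectrum`, `ofHeightOneSpectrum_injective`).
-/
import Fermat.Agent.H77.MWHolo.Pole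
import Fermat.Agent.H68.PoleDict

set_option autoImplicit false
set_option linter.style.haveILetI false
set_option linter.unusedVariables false
set_option linter.unusedSectionVars false

noncomputable section

open AlgebraicCurve IntermediateField IsDedekindDomain

namespace Fermat.Agent.H77

open Fermat.Agent.H39.MW

/-- Dedekind domains are stable under ring isomorphisms. -/
theorem mwh_isDedekindDomain_of_ringEquiv {R S : Type*} [CommRing R] [CommRing S]
    (e : R ≃+* S) [IsDedekindDomain R] : IsDedekindDomain S := by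
  haveI : IsDomain S := e.symm.toMulEquiv.isDomain
  haveI : IsNoetherianRing S := isNoetherianRing_of_ringEquiv R e
  haveI : Ring.DimensionLEOne S := Ring.DimensionLEOne.of_ringEquiv e.symm
  haveI : IsIntegrallyClosed S := IsIntegrallyClosed.of_equiv e
  exact { }

variable {K F : Type} [Field K] [Field F] [Algebra K F]

/-- `holo P₀` is the integral closure of `K[t]`, for `t` regular outside `P₀` with a pole at
`P₀`. -/
theorem mwh_mem_holo_iff_isIntegral (P₀ : Place K F) {t : F} (ht : t ∈ holo P₀)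
    (htp : P₀.ord t < 0) (hfin : FiniteDimensional K⟮t⟯ F)
    (hsep : Algebra.IsSeparable K⟮t⟯ F) (f : F) :
    f ∈ holo P₀ ↔ IsIntegral (Algebra.adjoin K ({t} : Set F)) f := by
  rw [Fermat.Agent.H68.pd_isIntegral_iff t hfin hsep]
  constructor
  · intro hf v hv
    have hne : v ≠ P₀ := by
      rintro rfl
      omega
    exact Fermat.Agent.H29.place_ord_nonneg_of_mem v (hf v hne)
  · intro hf v hv
    exact Fermat.Agent.H29.place_mem_of_ord_nonneg v
      (hf v (Fermat.Agent.H29.place_ord_nonneg_of_mem v (ht v hv)))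

/-- The identification of the integral closure of `K[t]` with `holo P₀`. -/
def mwhEquiv (P₀ : Place K F) {t : F} (ht : t ∈ holo P₀)
    (htp : P₀.ord t < 0) (hfin : FiniteDimensional K⟮t⟯ F)
    (hsep : Algebra.IsSeparable K⟮t⟯ F) :
    ↥(integralClosure (Algebra.adjoin K ({t} : Set F)) F) ≃+* ↥(holo P₀) where
  toFun b := ⟨(b : F), (mwh_mem_holo_iff_isIntegral P₀ ht htp hfin hsep _).mpr b.2⟩
  invFun b := ⟨(b : F), (mwh_mem_holo_iff_isIntegral P₀ ht htp hfin hsep _).mp b.2⟩
  left_inv _ := rfl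
  right_inv _ := rfl
  map_mul' _ _ := rfl
  map_add' _ _ := rfl

theorem coe_mwhEquiv (P₀ : Place K F) {t : F} (ht : t ∈ holo P₀)
    (htp : P₀.ord t < 0) (hfin : FiniteDimensional K⟮t⟯ F)
    (hsep : Algebra.IsSeparable K⟮t⟯ F)
    (b : ↥(integralClosure (Algebra.adjoin K ({t} : Set F)) F)) :
    ((mwhEquiv P₀ ht htp hfin hsep b : ↥(holo P₀)) : F) = (b : F) := rfl

theorem mwh_isDedekindDomain (P₀ : Place K F) {t : F} (ht : t ∈ holo P₀)
    (htp : P₀.ord t < 0) (hfin : FiniteDimensional K⟮t⟯ F)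
    (hsep : Algebra.IsSeparable K⟮t⟯ F) : IsDedekindDomain ↥(holo P₀) := by
  haveI := Fermat.Agent.H68.sepFI_isDedekindDomain_closure (K := K) t hfin hsep
  exact mwh_isDedekindDomain_of_ringEquiv (mwhEquiv P₀ ht htp hfin hsep)

theorem mwh_isFractionRing (P₀ : Place K F) {t : F} (ht : t ∈ holo P₀)
    (htp : P₀.ord t < 0) (hfin : FiniteDimensional K⟮t⟯ F)
    (hsep : Algebra.IsSeparable K⟮t⟯ F) : IsFractionRing ↥(holo P₀) F := by
  haveI := Fermat.Agent.H84.isFractionRing_closure (K := K) t hfin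
  refine IsFractionRing.of_field (R := ↥(holo P₀)) F (fun z => ?_)
  obtain ⟨a, b, hb, rfl⟩ := IsFractionRing.div_surjective
    (A := ↥(integralClosure (Algebra.adjoin K ({t} : Set F)) F)) z
  exact ⟨mwhEquiv P₀ ht htp hfin hsep a, mwhEquiv P₀ ht htp hfin hsep b, rfl⟩

/-- `holo P₀` is not a field: `t` has a zero. -/
theorem mwh_not_isField (h : Fermat.Agent.H58.RRHyp K F) (P₀ : Place K F) {t : F}
    (ht : t ∈ holo P₀) (htp : P₀.ord t < 0) : ¬ IsField ↥(holo P₀) := by
  intro hfield
  have hconst : ∀ c : K, t ≠ algebraMap K F c := by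
    rintro c rfl
    rw [Fermat.Agent.H23.ord_algebraMap] at htp
    exact lt_irrefl _ htp
  obtain ⟨v, hv⟩ := h.exists_zero_sub hconst 0
  rw [map_zero, sub_zero] at hv
  have hne : v ≠ P₀ := by
    rintro rfl
    omega
  have ht0 : (⟨t, ht⟩ : ↥(holo P₀)) ≠ 0 := by
    intro h0
    have : t = 0 := congrArg Subtype.val h0
    rw [this, Place.ord_zero] at hv
    exact lt_irrefl _ hv
  obtain ⟨b, hb⟩ := hfield.mul_inv_cancel ht0
  have hb' : t * (b : F) = 1 := congrArg Subtype.val hb
  have ht0' : t ≠ 0 := fun h0 => ht0 (Subtype.ext h0)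
  have hbinv : (b : F) = t⁻¹ := eq_inv_of_mul_eq_one_right hb'
  have h1 := Fermat.Agent.H29.place_ord_nonneg_of_mem v (b.2 v hne)
  rw [hbinv, Place.ord_inv] at h1
  omega

/-- **MW-E-HOLO** (`Fermat.Agent.H39.MW.HoloDedekindStatement`), from MW-E-FIN. -/
theorem holoDedekind (hfin : FiniteOverStatement) : HoloDedekindStatement := by
  intro K F _ _ _ _ _ hRR x hx hxfin P₀
  obtain ⟨t, ht, htp⟩ := mwh_exists_pole hRR P₀
  have htr : Transcendental K t := mwh_transcendental P₀ htp
  have htfin : FiniteDimensional K⟮t⟯ F := hfin K F x t hxfin htr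
  have hsep : Algebra.IsSeparable K⟮t⟯ F := Fermat.Agent.H84.isSeparable_of_charZero t htfin
  haveI hD : IsDedekindDomain ↥(holo P₀) := mwh_isDedekindDomain P₀ ht htp htfin hsep
  haveI hFr : IsFractionRing ↥(holo P₀) F := mwh_isFractionRing P₀ ht htp htfin hsep
  refine ⟨hD, hFr, mwh_not_isField hRR P₀ ht htp, ?_, ?_, ?_⟩
  · intro w hw
    have h1 := Fermat.Agent.H19.rh_ord_ofHeightOneSpectrum_nonneg (K := K) (F := F) w
      (⟨t, ht⟩ : ↥(holo P₀))
    rw [hw] at h1
    have h2 : algebraMap ↥(holo P₀) F ⟨t, ht⟩ = t := rfl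
    rw [h2] at h1
    omega
  · intro v hv
    exact Fermat.Agent.H19.rh_exists_heightOneSpectrum v (fun r => r.2 v hv)
  · exact Fermat.Agent.H29.ofHeightOneSpectrum_injective

end Fermat.Agent.H77

end
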