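/-
helper77, P-MW row 877 (MW-E-HOLO), part 1: a function with a single pole.

For a function field `F / K` satisfying Riemann's theorem (`H58.RRHyp`) and a place `P₀` there
is `t ∈ F`, regular outside `P₀`, with a pole at `P₀`; such a `t` is transcendental over `K`.
-/
import Fermat.Agent.H39.MW.ModStatements
import Fermat.Agent.H58.RR.NonSpecial

set_option autoImplicit false
set_option linter.style.haveILetI false
set_option linter.unusedVariables false
set_option linter.unusedSectionVars false

noncomputable section

open AlgebraicCurve IntermediateField IsDedekindDomain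

namespace Fermat.Agent.H77

open Fermat.Agent.H39.MW

variable {K F : Type} [Field K] [Field F] [Algebra K F]

/-- `L(m P₀) ⊆ holo P₀`. -/
theorem mwh_space_le_holo (P₀ : Place K F) (m : ℕ) {f : F}
    (hf : f ∈ riemannRochSpace (m • Finsupp.single P₀ (1 : ℤ))) : f ∈ holo P₀ := by
  intro v hv
  rcases (mem_riemannRochSpace_iff.mp hf) v with h0 | h1
  · rw [h0]; exact zero_mem _
  · apply Fermat.Agent.H29.place_mem_of_ord_nonneg
    rw [Finsupp.smul_apply, Finsupp.single_eq_of_ne hv, smul_zero, neg_zero] at h1
    exact h1

/-- Riemann: there is a function regular outside `P₀` with a pole at `P₀`. -/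
theorem mwh_exists_pole (h : Fermat.Agent.H58.RRHyp K F) (P₀ : Place K F) :
    ∃ t : F, t ∈ holo P₀ ∧ P₀.ord t < 0 := by
  haveI := h.principal
  set m : ℕ := genusFF K F + 1 with hm
  set D : Divisor K F := m • Finsupp.single P₀ (1 : ℤ) with hD
  have hdegD : Divisor.degree D = (m : ℤ) := by
    rw [hD, map_nsmul, Divisor.degree_single, h.deg_one P₀]
    simp
  have h1 := h.riemann_inequality D
  rw [hdegD] at h1
  have h2 : 2 ≤ Module.finrank K (riemannRochSpace D) := by
    have : (2 : ℤ) ≤ (Module.finrank K (riemannRochSpace D) : ℤ) := by
      rw [hm] at h1; push_cast at h1; omega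
    exact_mod_cast this
  haveI := h.finite_space D
  by_contra hcon
  simp only [not_exists, not_and, not_lt] at hcon
  have hle : riemannRochSpace D ≤ riemannRochSpace (0 : Divisor K F) := by
    intro f hf
    rw [mem_riemannRochSpace_iff]
    intro v
    by_cases hf0 : f = 0
    · exact Or.inl hf0
    right
    simp only [Finsupp.coe_zero, Pi.zero_apply, neg_zero]
    by_cases hv : v = P₀
    · subst hv
      exact hcon f (mwh_space_le_holo v m hf)
    · exact Fermat.Agent.H29.place_ord_nonneg_of_mem v (mwh_space_le_holo P₀ m hf v hv)
  haveI := h.finite_space (0 : Divisor K F)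
  have h3 := Submodule.finrank_mono hle
  rw [Fermat.Agent.H58.rr_finrank_zero h.deg_one P₀] at h3
  omega

/-- A function with a pole is transcendental over the (algebraically closed) constants. -/
theorem mwh_transcendental [IsAlgClosed K] (P₀ : Place K F) {t : F} (ht : P₀.ord t < 0) :
    Transcendental K t := by
  intro halg
  have hint : IsIntegral K t := halg.isIntegral
  have hdeg : (minpoly K t).degree = 1 :=
    IsAlgClosed.degree_eq_one_of_irreducible K (minpoly.irreducible hint)
  obtain ⟨c, hc⟩ := minpoly.mem_range_of_degree_eq_one K t hdeg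
  rw [← hc, Fermat.Agent.H23.ord_algebraMap] at ht
  exact lt_irrefl _ ht

end Fermat.Agent.H77

end
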